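/-
S56, architect file 2: the Galois modules of the Taylor-Wiles argument.  Definitions only.
Owner: helper82.

* `detChar ρbar`   : the determinant character `G_ℚ → kˣ` (= mod `p` cyclotomic character in S56);
* `adRep ρbar`     : the adjoint representation on `End_k(V)`, `g • f = ρ(g) f ρ(g)⁻¹`;
* `ad0 ρbar`       : its subrepresentation of trace-zero endomorphisms;
* `ad0Dual ρbar`   : `(ad⁰ρbar)^* ⊗ det ρbar` (the Cartier dual `ad⁰ρbar(1)^*`… of the classical
                     theory: `Hom_k(ad⁰, k)(1)`, written with `det ρbar` instead of the cyclotomic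
                     character so that no `Algebra (ZMod p) k` is needed);
* `VanishesAt N c q` : the cocycle `c` is a coboundary at SOME Frobenius element over `q`.
Cohomology = `Fermat.Agent.F4.H1sm` (level-constant cocycles modulo coboundaries) for the level
structure `Fermat.Agent.F4.levelsAll` of `G_ℚ`.
-/
import Fermat.Agent.F4.Datum
import Fermat.Prelude.Def_GaloisRep_Residual
import Fermat.Prelude.Def_GroupCohomology_Selmer
import Fermat.Prelude.Def_EllipticCurve_FrobeniusTrace

set_option autoImplicit false

namespace Fermat.Agent.S56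

open Fermat.Agent.F4

variable {k : Type} [Field k]

/-- The determinant character of a residual representation. -/
noncomputable def detChar (ρbar : ResidualGaloisRep k) : GQ →* kˣ :=
  (LinearMap.det.comp ρbar.ρ).toHomUnits

/-- The adjoint representation on `End_k(V)`: `g • f = ρ(g) ∘ f ∘ ρ(g)⁻¹`. -/
noncomputable def adRep (ρbar : ResidualGaloisRep k) :
    Representation k GQ (Module.End k ρbar.V) :=
  Representation.linHom (ρbar.ρ : Representation k GQ ρbar.V) ρbar.ρ

/-- The trace-zero endomorphisms. -/
noncomputable def ad0Sub (ρbar : ResidualGaloisRep k) : Submodule k (Module.End k ρbar.V) :=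
  LinearMap.ker (LinearMap.trace k ρbar.V)

theorem ad0Sub_le_comap (ρbar : ResidualGaloisRep k) (g : GQ) :
    ad0Sub ρbar ≤ (ad0Sub ρbar).comap (adRep ρbar g) := by
  intro f hf
  have hf' : LinearMap.trace k ρbar.V f = 0 := hf
  show LinearMap.trace k ρbar.V (adRep ρbar g f) = 0
  have h1 : adRep ρbar g f = ρbar.ρ g * (f * ρbar.ρ g⁻¹) := rfl
  rw [h1, LinearMap.trace_mul_comm, mul_assoc, ← map_mul, inv_mul_cancel, map_one, mul_one, hf']

/-- `ad⁰ ρbar` as a representation of `G_ℚ`. -/
noncomputable def ad0 (ρbar : ResidualGaloisRep k) : Rep k GQ :=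
  Rep.of ((adRep ρbar).subrepresentation (ad0Sub ρbar) (ad0Sub_le_comap ρbar))

/-- `(ad⁰ ρbar)^* ⊗ det ρbar`. -/
noncomputable def ad0Dual (ρbar : ResidualGaloisRep k) : Rep k GQ :=
  (ad0 ρbar).dualTwist (detChar ρbar)

/-- The cocycle `c` is a coboundary at some Frobenius element over `q`:
there are a place `P` over `q`, a Frobenius element `φ` at `P` and `x` with `c φ = φ x - x`. -/
def VanishesAt (N : Rep k GQ) (c : GQ → N) (q : ℕ) : Prop :=
  ∃ P : ValuationSubring (AlgebraicClosure ℚ), P.LiesOverPrime q ∧
    ∃ φ : GQ, P.IsFrobeniusAt φ q ∧ ∃ x : N, c φ = N.ρ φ x - x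

end Fermat.Agent.S56
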